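import Mathlib
import Fermat.Agent.LT.A2.H38.MatchSpec
import Fermat.Agent.Lib.Cheb.H476.FrobConj

/-!
# Row LT, tower A2, branch GALSEED, leaf A2.01.15 `ConjPlaceC` (helper494)

OFF-MAIN.  `conjPlaceC494 : Fermat.Agent.LT.A2.H38.ConjPlaceC` (the frozen Prop of
`LT/A2/H38/MatchSpec.lean`, helper38@28f1a145c), unconditional.

* `exists_placeUnder494` : every finite place `w` of a number field `K ⊂ ℚ̄` is cut out by a
  valuation subring of `ℚ̄` (Chevalley: `Ideal.image_subset_nonunits_valuationSubring`, and `w`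
  is maximal);
* `liesOverPrime_of_placeUnder494` : such a valuation subring lies over `p` if `p ∈ w`;
* transitivity of `Gal(ℚ̄/ℚ)` on the valuation subrings over `p` and conjugation of Frobenius
  elements are ON MAIN (`Lib/Cheb/H476/FrobConj`: `exists_smul_eq`, `isFrobeniusAt_conj`).
-/

set_option autoImplicit false

open IsDedekindDomain NumberField
open scoped Pointwise

noncomputable section

namespace Fermat.Agent.LT.A2.H494

open Fermat.Agent.LT.A2.H38

local notation "Γℚ" => (AlgebraicClosure ℚ ≃ₐ[ℚ] AlgebraicClosure ℚ)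

/-- The embedding `𝓞 K → ℚ̄` of the ring of integers of a number field `K ⊂ ℚ̄`. -/
def emb494 (K : IntermediateField ℚ (AlgebraicClosure ℚ)) : 𝓞 K →+* AlgebraicClosure ℚ :=
  (algebraMap K (AlgebraicClosure ℚ)).comp (algebraMap (𝓞 K) K)

theorem emb494_apply (K : IntermediateField ℚ (AlgebraicClosure ℚ)) (x : 𝓞 K) :
    emb494 K x = (((x : K) : AlgebraicClosure ℚ)) := rfl

theorem emb494_injective (K : IntermediateField ℚ (AlgebraicClosure ℚ)) :
    Function.Injective (emb494 K) :=
  (algebraMap K (AlgebraicClosure ℚ)).injective.comp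
    (FaithfulSMul.algebraMap_injective (𝓞 K) K)

/-- **Every finite place of `K ⊂ ℚ̄` is cut out by a valuation subring of `ℚ̄`.** -/
theorem exists_placeUnder494 (K : IntermediateField ℚ (AlgebraicClosure ℚ)) [NumberField K]
    (w : HeightOneSpectrum (𝓞 K)) :
    ∃ A : ValuationSubring (AlgebraicClosure ℚ), PlaceUnder K A w := by
  classical
  -- the image of `𝓞 K` in `ℚ̄` and the image of `w`
  let f : 𝓞 K →+* AlgebraicClosure ℚ := emb494 K
  let R : Subring (AlgebraicClosure ℚ) := f.range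
  let g : 𝓞 K →+* R := f.rangeRestrict
  have hg : Function.Surjective g := f.rangeRestrict_surjective
  have hgf : ∀ x : 𝓞 K, ((g x : R) : AlgebraicClosure ℚ) = f x := fun _ => rfl
  have hginj : Function.Injective g := by
    intro x y hxy
    apply emb494_injective K
    have := congrArg (fun z : R => (z : AlgebraicClosure ℚ)) hxy
    simpa [hgf] using this
  have hI : w.asIdeal.map g ≠ ⊤ := by
    intro htop
    have h1 : (1 : R) ∈ w.asIdeal.map g := by
      rw [htop]; trivial
    rw [Ideal.mem_map_iff_of_surjective g hg] at h1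
    obtain ⟨x, hx, hx1⟩ := h1
    have hx' : x = 1 := hginj (by rw [hx1, map_one])
    rw [hx'] at hx
    exact w.isPrime.ne_top ((Ideal.eq_top_iff_one _).2 hx)
  obtain ⟨A, hRA, hsub⟩ := Ideal.image_subset_nonunits_valuationSubring (w.asIdeal.map g) hI
  have hmemA : ∀ x : 𝓞 K, f x ∈ A := fun x => hRA (g x).2
  have hfwd : ∀ x : 𝓞 K, x ∈ w.asIdeal → f x ∈ A.nonunits := by
    intro x hx
    apply hsub
    exact ⟨g x, Ideal.mem_map_of_mem g hx, rfl⟩
  refine ⟨A, fun x => ⟨fun hx => hfwd x hx, fun hx => ?_⟩⟩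
  -- `x ∈ 𝔪_A ⟹ x ∈ w` : otherwise `1 = y x + m` with `m ∈ w` would be a non-unit of `A`
  by_contra hxw
  obtain ⟨y, m, hm, hym⟩ := w.isMaximal.exists_inv hxw
  have hx' : f x ∈ A.nonunits := hx
  have h1 : A.valuation (f y * f x) < 1 := by
    rw [map_mul]
    have hy1 : A.valuation (f y) ≤ 1 := (A.valuation_le_one_iff _).2 (hmemA y)
    have hx1 : A.valuation (f x) < 1 := (A.mem_nonunits_iff).1 hx'
    rw [mul_comm]
    exact mul_lt_one_of_lt_of_le hx1 hy1
  have h2 : A.valuation (f m) < 1 := (A.mem_nonunits_iff).1 (hfwd m hm)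
  have h3 : A.valuation (1 : AlgebraicClosure ℚ) < 1 := by
    have e : (1 : AlgebraicClosure ℚ) = f y * f x + f m := by
      rw [← map_mul, ← map_add, hym, map_one]
    rw [e]
    exact lt_of_le_of_lt (Valuation.map_add _ _ _) (max_lt h1 h2)
  rw [map_one] at h3
  exact lt_irrefl _ h3

/-- A valuation subring cutting out a place over `p` lies over `p`. -/
theorem liesOverPrime_of_placeUnder494 (K : IntermediateField ℚ (AlgebraicClosure ℚ))
    [NumberField K] {w : HeightOneSpectrum (𝓞 K)} {A : ValuationSubring (AlgebraicClosure ℚ)}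
    (hA : PlaceUnder K A w) {p : ℕ} (hp : ((p : ℕ) : 𝓞 K) ∈ w.asIdeal) :
    A.LiesOverPrime p := by
  have h := (hA ((p : ℕ) : 𝓞 K)).1 hp
  show ((p : ℕ) : AlgebraicClosure ℚ) ∈ A.nonunits
  have e : ((((p : ℕ) : 𝓞 K) : K) : AlgebraicClosure ℚ) = ((p : ℕ) : AlgebraicClosure ℚ) := by
    simp
  rw [← e]
  exact h

/-- **Leaf A2.01.15 `ConjPlaceC`.** -/
theorem conjPlaceC494 : ConjPlaceC := by
  intro ρ Ψ _ _ p hp A hA w hw
  obtain ⟨A', hA'w⟩ := exists_placeUnder494 (Fermat.Agent.LT.H130.fieldE ρ) w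
  have hA'p : A'.LiesOverPrime p :=
    liesOverPrime_of_placeUnder494 (Fermat.Agent.LT.H130.fieldE ρ) hA'w hw
  obtain ⟨τ, hτ⟩ := Fermat.Agent.Lib.Cheb.H476.exists_smul_eq hp hA hA'p
  refine ⟨A', τ, hA'p, hA'w, fun σ hσ => ?_⟩
  have := Fermat.Agent.Lib.Cheb.H476.isFrobeniusAt_conj τ hσ
  rw [hτ] at this
  exact this

end Fermat.Agent.LT.A2.H494

end
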